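import Mathlib
import Fermat.Agent.S53.Defs
import Fermat.Agent.S53.TestAlgebra
import Fermat.Agent.S53.LimitRing

set_option autoImplicit false
set_option linter.style.haveILetI false

namespace Fermat.Agent.S53.Rep

open IsLocalRing GaloisRep MvPolynomial

section Adm

variable {𝒪 : Type} [CommRing 𝒪] [IsLocalRing 𝒪] {ι : Type}

/-- The maximal ideal of the polynomial ring attached to a `k`-point. -/
noncomputable def Mx (xbar : ι → ResidueField 𝒪) : Ideal (MvPolynomial ι 𝒪) :=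
  RingHom.ker (aeval xbar : MvPolynomial ι 𝒪 →ₐ[𝒪] ResidueField 𝒪)

lemma mem_Mx {xbar : ι → ResidueField 𝒪} {p : MvPolynomial ι 𝒪} :
    p ∈ Mx xbar ↔ aeval xbar p = 0 := Iff.rfl

lemma aeval_xbar_surjective (xbar : ι → ResidueField 𝒪) :
    Function.Surjective (aeval xbar : MvPolynomial ι 𝒪 →ₐ[𝒪] ResidueField 𝒪) := by
  intro c
  obtain ⟨a, rfl⟩ := IsLocalRing.residue_surjective c
  exact ⟨C a, by simp⟩

instance Mx_isMaximal (xbar : ι → ResidueField 𝒪) : (Mx xbar).IsMaximal :=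
  RingHom.ker_isMaximal_of_surjective _ (aeval_xbar_surjective xbar)

lemma exists_C_sub_mem_Mx (xbar : ι → ResidueField 𝒪) (p : MvPolynomial ι 𝒪) :
    ∃ a : 𝒪, p - C a ∈ Mx xbar := by
  obtain ⟨a, ha⟩ := IsLocalRing.residue_surjective (aeval xbar p)
  refine ⟨a, ?_⟩
  rw [mem_Mx, map_sub, aeval_C, sub_eq_zero, ← ha]
  rfl

lemma C_mem_Mx_iff (xbar : ι → ResidueField 𝒪) (a : 𝒪) :
    (C a : MvPolynomial ι 𝒪) ∈ Mx xbar ↔ a ∈ maximalIdeal 𝒪 := by
  rw [mem_Mx, aeval_C]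
  exact IsLocalRing.residue_eq_zero_iff a

/-- Admissible ideals: those between a power of `M` and `M`, with finite quotient. -/
structure Adm (xbar : ι → ResidueField 𝒪) (I : Ideal (MvPolynomial ι 𝒪)) : Prop where
  le : I ≤ Mx xbar
  pow_le : ∃ n, (Mx xbar) ^ n ≤ I
  finite : Finite (MvPolynomial ι 𝒪 ⧸ I)

variable {xbar : ι → ResidueField 𝒪} {I J : Ideal (MvPolynomial ι 𝒪)}

lemma Adm.isUnit_mk (h : Adm xbar I) {p : MvPolynomial ι 𝒪} (hp : p ∉ Mx xbar) :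
    IsUnit (Ideal.Quotient.mk I p) := by
  obtain ⟨q, i, hi, hq⟩ := (Mx_isMaximal xbar).exists_inv hp
  obtain ⟨n, hn⟩ := h.pow_le
  have hnil : IsNilpotent (Ideal.Quotient.mk I i) := by
    refine ⟨n, ?_⟩
    rw [← map_pow, Ideal.Quotient.eq_zero_iff_mem]
    exact hn (Ideal.pow_mem_pow hi n)
  have h1 : Ideal.Quotient.mk I q * Ideal.Quotient.mk I p = 1 - Ideal.Quotient.mk I i := by
    rw [← map_mul, ← map_one (Ideal.Quotient.mk I), ← map_sub, ← hq]
    congr 1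
    ring
  have h2 : IsUnit (Ideal.Quotient.mk I q * Ideal.Quotient.mk I p) := by
    rw [h1]
    exact hnil.isUnit_one_sub
  exact isUnit_of_mul_isUnit_right h2

lemma Adm.not_isUnit_mk (h : Adm xbar I) {p : MvPolynomial ι 𝒪} (hp : p ∈ Mx xbar) :
    ¬ IsUnit (Ideal.Quotient.mk I p) := by
  intro hu
  obtain ⟨b, hb⟩ := hu.exists_right_inv
  obtain ⟨q, rfl⟩ := Ideal.Quotient.mk_surjective b
  rw [← map_mul, ← map_one (Ideal.Quotient.mk I), Ideal.Quotient.eq] at hb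
  have h1 : (1 : MvPolynomial ι 𝒪) ∈ Mx xbar := by
    have := (Mx xbar).sub_mem ((Mx xbar).mul_mem_right q hp) (h.le hb)
    simpa using this
  exact (Mx_isMaximal xbar).ne_top ((Ideal.eq_top_iff_one _).mpr h1)

lemma Adm.isUnit_mk_iff (h : Adm xbar I) {p : MvPolynomial ι 𝒪} :
    IsUnit (Ideal.Quotient.mk I p) ↔ p ∉ Mx xbar :=
  ⟨fun hu hp => h.not_isUnit_mk hp hu, h.isUnit_mk⟩

lemma Adm.isLocalRing (h : Adm xbar I) : IsLocalRing (MvPolynomial ι 𝒪 ⧸ I) := by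
  haveI : Nontrivial (MvPolynomial ι 𝒪 ⧸ I) :=
    Ideal.Quotient.nontrivial_iff.mpr (fun htop => (Mx_isMaximal xbar).ne_top
      (top_le_iff.mp (htop ▸ h.le)))
  refine IsLocalRing.of_isUnit_or_isUnit_one_sub_self fun a => ?_
  obtain ⟨p, rfl⟩ := Ideal.Quotient.mk_surjective a
  by_cases hp : p ∈ Mx xbar
  · right
    rw [← map_one (Ideal.Quotient.mk I), ← map_sub]
    refine h.isUnit_mk fun h1 => ?_
    have : (1 : MvPolynomial ι 𝒪) ∈ Mx xbar := by
      have := (Mx xbar).add_mem h1 hp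
      simpa using this
    exact (Mx_isMaximal xbar).ne_top ((Ideal.eq_top_iff_one _).mpr this)
  · left
    exact h.isUnit_mk hp

lemma Adm.mk_mem_maximalIdeal_iff (h : Adm xbar I) {p : MvPolynomial ι 𝒪} :
    haveI := h.isLocalRing
    Ideal.Quotient.mk I p ∈ maximalIdeal (MvPolynomial ι 𝒪 ⧸ I) ↔ p ∈ Mx xbar := by
  haveI := h.isLocalRing
  rw [IsLocalRing.mem_maximalIdeal, mem_nonunits_iff, h.isUnit_mk_iff, not_not]

lemma Adm.maximalIdeal_eq (h : Adm xbar I) :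
    haveI := h.isLocalRing
    maximalIdeal (MvPolynomial ι 𝒪 ⧸ I) = (Mx xbar).map (Ideal.Quotient.mk I) := by
  haveI := h.isLocalRing
  ext a
  obtain ⟨p, rfl⟩ := Ideal.Quotient.mk_surjective a
  rw [h.mk_mem_maximalIdeal_iff]
  constructor
  · exact fun hp => Ideal.mem_map_of_mem _ hp
  · intro hp
    rw [Ideal.mem_map_iff_of_surjective _ Ideal.Quotient.mk_surjective] at hp
    obtain ⟨q, hq, hqp⟩ := hp
    have := h.le (Ideal.Quotient.eq.mp hqp)
    have h2 := (Mx xbar).sub_mem hq this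
    simpa using h2

lemma Adm.isTest (h : Adm xbar I) :
    haveI := h.isLocalRing
    IsArtinianTestAlgebra 𝒪 (MvPolynomial ι 𝒪 ⧸ I) := by
  haveI := h.isLocalRing
  haveI := h.finite
  refine ⟨⟨fun a ha => ?_⟩, fun c => ?_, inferInstance⟩
  · have h1 : algebraMap 𝒪 (MvPolynomial ι 𝒪 ⧸ I) a = Ideal.Quotient.mk I (C a) := rfl
    rw [h1, h.isUnit_mk_iff, C_mem_Mx_iff] at ha
    simpa using ha
  · obtain ⟨b, rfl⟩ := IsLocalRing.residue_surjective c
    obtain ⟨p, rfl⟩ := Ideal.Quotient.mk_surjective b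
    obtain ⟨a, ha⟩ := exists_C_sub_mem_Mx xbar p
    refine ⟨a, ?_⟩
    have h1 : algebraMap 𝒪 (MvPolynomial ι 𝒪 ⧸ I) a = Ideal.Quotient.mk I (C a) := rfl
    rw [Function.comp_apply, h1, eq_comm, ← sub_eq_zero, ← map_sub, ← map_sub,
      IsLocalRing.residue_eq_zero_iff, h.mk_mem_maximalIdeal_iff]
    exact ha

lemma Adm.mono (h : Adm xbar I) (hIJ : I ≤ J) (hJ : J ≤ Mx xbar) : Adm xbar J where
  le := hJ
  pow_le := h.pow_le.imp fun _ hn => hn.trans hIJ
  finite := by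
    haveI := h.finite
    exact Finite.of_surjective _ (Ideal.Quotient.factor_surjective hIJ)

lemma Adm.inf (h : Adm xbar I) (h' : Adm xbar J) : Adm xbar (I ⊓ J) where
  le := inf_le_left.trans h.le
  pow_le := by
    obtain ⟨n, hn⟩ := h.pow_le
    obtain ⟨m, hm⟩ := h'.pow_le
    exact ⟨max n m, le_inf ((Ideal.pow_le_pow_right (le_max_left n m)).trans hn)
      ((Ideal.pow_le_pow_right (le_max_right n m)).trans hm)⟩
  finite := by
    haveI := h.finite
    haveI := h'.finite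
    refine Finite.of_injective (fun a : MvPolynomial ι 𝒪 ⧸ (I ⊓ J) =>
      (Ideal.Quotient.factor (inf_le_left : I ⊓ J ≤ I) a,
        Ideal.Quotient.factor (inf_le_right : I ⊓ J ≤ J) a)) ?_
    intro a b hab
    obtain ⟨p, rfl⟩ := Ideal.Quotient.mk_surjective a
    obtain ⟨q, rfl⟩ := Ideal.Quotient.mk_surjective b
    simp only [Ideal.Quotient.factor_mk, Prod.mk.injEq] at hab
    rw [Ideal.Quotient.eq] at hab ⊢
    rw [Ideal.Quotient.eq] at hab
    exact ⟨hab.1, hab.2⟩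

end Adm

section Good

variable {𝒪 : Type} [CommRing 𝒪] [IsLocalRing 𝒪] {ι : Type}
variable (F : ∀ ⦃A : Type⦄ [CommRing A] [IsLocalRing A] [Algebra 𝒪 A], (ι → A) → Prop)
variable (xbar : ι → ResidueField 𝒪)

/-- Good ideals: admissible ideals such that the tautological point of the quotient is in `F`. -/
def Good (I : Ideal (MvPolynomial ι 𝒪)) : Prop :=
  ∃ h : Adm xbar I, @F (MvPolynomial ι 𝒪 ⧸ I) _ h.isLocalRing _
    (fun i => Ideal.Quotient.mk I (X i))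

variable {F xbar} {I J : Ideal (MvPolynomial ι 𝒪)}

lemma Good.adm (h : Good F xbar I) : Adm xbar I := h.1

lemma Good.mono (hF : IsPointFunctor 𝒪 F) (h : Good F xbar I) (hIJ : I ≤ J) (hJ : J ≤ Mx xbar) :
    Good F xbar J := by
  obtain ⟨hI, hFI⟩ := h
  have hJ' := hI.mono hIJ hJ
  refine ⟨hJ', ?_⟩
  haveI := hI.isLocalRing
  haveI := hJ'.isLocalRing
  exact hF.map hI.isTest hJ'.isTest (Ideal.Quotient.factorₐ 𝒪 hIJ) hFI

lemma Good.inf (hF : IsPointFunctor 𝒪 F) (h : Good F xbar I) (h' : Good F xbar J) :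
    Good F xbar (I ⊓ J) := by
  obtain ⟨hI, hFI⟩ := h
  obtain ⟨hJ, hFJ⟩ := h'
  have hinf := hI.inf hJ
  have hsup : Adm xbar (I ⊔ J) := hI.mono le_sup_left (sup_le hI.le hJ.le)
  refine ⟨hinf, ?_⟩
  haveI := hI.isLocalRing
  haveI := hJ.isLocalRing
  haveI := hinf.isLocalRing
  haveI := hsup.isLocalRing
  refine hF.of_fibreProduct hI.isTest hJ.isTest hsup.isTest hinf.isTest
    (Ideal.Quotient.factorₐ 𝒪 (le_sup_left : I ≤ I ⊔ J))
    (Ideal.Quotient.factorₐ 𝒪 (le_sup_right : J ≤ I ⊔ J))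
    (Ideal.Quotient.factorₐ 𝒪 (inf_le_left : I ⊓ J ≤ I))
    (Ideal.Quotient.factorₐ 𝒪 (inf_le_right : I ⊓ J ≤ J)) ?_ ?_ ?_ hFI hFJ
  · ext a
    obtain ⟨p, rfl⟩ := Ideal.Quotient.mk_surjective a
    rfl
  · intro a b hab
    obtain ⟨p, rfl⟩ := Ideal.Quotient.mk_surjective a
    obtain ⟨q, rfl⟩ := Ideal.Quotient.mk_surjective b
    simp only [Prod.mk.injEq] at hab
    have h1 : Ideal.Quotient.mk I p = Ideal.Quotient.mk I q := hab.1
    have h2 : Ideal.Quotient.mk J p = Ideal.Quotient.mk J q := hab.2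
    rw [Ideal.Quotient.eq] at h1 h2 ⊢
    exact ⟨h1, h2⟩
  · intro a b hab
    obtain ⟨p, rfl⟩ := Ideal.Quotient.mk_surjective a
    obtain ⟨q, rfl⟩ := Ideal.Quotient.mk_surjective b
    have h1 : Ideal.Quotient.mk (I ⊔ J) p = Ideal.Quotient.mk (I ⊔ J) q := hab
    rw [Ideal.Quotient.eq, Submodule.mem_sup] at h1
    obtain ⟨u, hu, v, hv, huv⟩ := h1
    refine ⟨Ideal.Quotient.mk (I ⊓ J) (p - u), ?_, ?_⟩
    · show Ideal.Quotient.mk I (p - u) = Ideal.Quotient.mk I p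
      rw [Ideal.Quotient.eq]
      simpa using I.neg_mem hu
    · show Ideal.Quotient.mk J (p - u) = Ideal.Quotient.mk J q
      rw [Ideal.Quotient.eq]
      have : p - u - q = v := by linear_combination -huv
      rw [this]
      exact hv

/-- For a point `x` of a test algebra `A`: `p ∈ M ↔ p(x) ∈ 𝔪_A`. -/
lemma aeval_mem_maximalIdeal_iff (hF : IsPointFunctor 𝒪 F) (hx : F xbar)
    {A : Type} [CommRing A] [IsLocalRing A] [Algebra 𝒪 A] (hA : IsArtinianTestAlgebra 𝒪 A)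
    {x : ι → A} (hFx : F x) (p : MvPolynomial ι 𝒪) :
    aeval x p ∈ maximalIdeal A ↔ p ∈ Mx xbar := by
  obtain ⟨π, hπ⟩ := exists_residueAlgHom 𝒪 A hA.isLocalHom hA.residue_surjective
  have h1 : π ∘ x = xbar :=
    hF.residue_unique _ _ (hF.map hA (isArtinianTestAlgebra_residueField 𝒪) π hFx) hx
  have h2 : π.comp (aeval x) = (aeval xbar : MvPolynomial ι 𝒪 →ₐ[𝒪] ResidueField 𝒪) := by
    ext i
    simpa using congrFun h1 i
  rw [← hπ, mem_Mx, ← h2]
  rfl

lemma adm_ker [Finite (ResidueField 𝒪)] (hF : IsPointFunctor 𝒪 F) (hx : F xbar)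
    {A : Type} [CommRing A] [IsLocalRing A] [Algebra 𝒪 A] (hA : IsArtinianTestAlgebra 𝒪 A)
    {x : ι → A} (hFx : F x) :
    Adm xbar (RingHom.ker (aeval x : MvPolynomial ι 𝒪 →ₐ[𝒪] A)) where
  le := by
    intro p hp
    rw [← aeval_mem_maximalIdeal_iff hF hx hA hFx, (RingHom.mem_ker).mp hp]
    exact zero_mem _
  pow_le := by
    haveI := hA.isArtinian
    obtain ⟨n, hn⟩ := (isArtinianRing_iff_isNilpotent_maximalIdeal A).mp hA.isArtinian
    refine ⟨n, ?_⟩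
    have h1 : Mx xbar ≤ (maximalIdeal A).comap (aeval x : MvPolynomial ι 𝒪 →ₐ[𝒪] A) :=
      fun p hp => (aeval_mem_maximalIdeal_iff hF hx hA hFx p).mpr hp
    calc (Mx xbar) ^ n ≤ ((maximalIdeal A).comap (aeval x : MvPolynomial ι 𝒪 →ₐ[𝒪] A)) ^ n :=
          Ideal.pow_right_mono h1 n
      _ ≤ ((maximalIdeal A) ^ n).comap (aeval x : MvPolynomial ι 𝒪 →ₐ[𝒪] A) :=
          Ideal.le_comap_pow _ n
      _ = RingHom.ker (aeval x : MvPolynomial ι 𝒪 →ₐ[𝒪] A) := by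
          rw [hn]; rfl
  finite := by
    haveI := finite_of_isArtinianTestAlgebra 𝒪 A hA
    exact Finite.of_injective _ (Ideal.kerLiftAlg_injective (aeval x : MvPolynomial ι 𝒪 →ₐ[𝒪] A))

lemma good_ker [Finite (ResidueField 𝒪)] (hF : IsPointFunctor 𝒪 F) (hx : F xbar)
    {A : Type} [CommRing A] [IsLocalRing A] [Algebra 𝒪 A] (hA : IsArtinianTestAlgebra 𝒪 A)
    {x : ι → A} (hFx : F x) :
    Good F xbar (RingHom.ker (aeval x : MvPolynomial ι 𝒪 →ₐ[𝒪] A)) := by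
  have hadm := adm_ker hF hx hA hFx
  refine ⟨hadm, ?_⟩
  haveI := hadm.isLocalRing
  refine hF.of_injective hadm.isTest hA (Ideal.kerLiftAlg (aeval x : MvPolynomial ι 𝒪 →ₐ[𝒪] A))
    (Ideal.kerLiftAlg_injective _) ?_
  convert hFx using 1
  ext i
  simp

lemma good_Mx [Finite (ResidueField 𝒪)] (hF : IsPointFunctor 𝒪 F) (hx : F xbar) :
    Good F xbar (Mx xbar) :=
  good_ker hF hx (isArtinianTestAlgebra_residueField 𝒪) hx

/-- A good ideal `I` gives, for every point `y` of a test algebra killed by `I`... conversely: a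
homomorphism out of `P/I` produces a point. -/
lemma Good.map_point (hF : IsPointFunctor 𝒪 F) (h : Good F xbar I)
    {B : Type} [CommRing B] [IsLocalRing B] [Algebra 𝒪 B] (hB : IsArtinianTestAlgebra 𝒪 B)
    (y : ι → B) (hy : I ≤ RingHom.ker (aeval y : MvPolynomial ι 𝒪 →ₐ[𝒪] B)) : F y := by
  obtain ⟨hI, hFI⟩ := h
  haveI := hI.isLocalRing
  have := hF.map hI.isTest hB (Ideal.Quotient.liftₐ I (aeval y) (fun a ha => hy ha)) hFI
  convert this using 1
  ext i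
  exact (aeval_X y i).symm

end Good

end Fermat.Agent.S53.Rep
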