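import Mathlib
import Fermat.Agent.S53.Rep.Good

set_option autoImplicit false
set_option linter.style.haveILetI false

namespace Fermat.Agent.S53.Rep

open IsLocalRing GaloisRep MvPolynomial

section Tangent

variable {𝒪 : Type} [CommRing 𝒪] [IsLocalRing 𝒪] {ι : Type}
variable (F : ∀ ⦃A : Type⦄ [CommRing A] [IsLocalRing A] [Algebra 𝒪 A], (ι → A) → Prop)
variable (xbar : ι → ResidueField 𝒪)

/-- The intersection of the kernels of all the dual number points. -/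
noncomputable def Tker : Ideal (MvPolynomial ι 𝒪) :=
  letI := dualAlg 𝒪
  ⨅ y : {y : ι → DualNumber (ResidueField 𝒪) // F y},
    RingHom.ker (aeval y.1 : MvPolynomial ι 𝒪 →ₐ[𝒪] DualNumber (ResidueField 𝒪))

variable {F xbar}

lemma Tker_le (y : ι → DualNumber (ResidueField 𝒪)) (hy : letI := dualAlg 𝒪; F y) :
    letI := dualAlg 𝒪
    Tker F ≤ RingHom.ker (aeval y : MvPolynomial ι 𝒪 →ₐ[𝒪] DualNumber (ResidueField 𝒪)) := by
  letI := dualAlg 𝒪
  exact iInf_le (fun y : {y : ι → DualNumber (ResidueField 𝒪) // F y} =>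
    RingHom.ker (aeval y.1 : MvPolynomial ι 𝒪 →ₐ[𝒪] DualNumber (ResidueField 𝒪))) ⟨y, hy⟩

lemma finite_quot_Tker [Finite (ResidueField 𝒪)] (hF : IsPointFunctor 𝒪 F) :
    Finite (MvPolynomial ι 𝒪 ⧸ Tker F) := by
  letI := dualAlg 𝒪
  haveI : Finite {y : ι → DualNumber (ResidueField 𝒪) // F y} := hF.tangent_finite
  haveI : Finite (DualNumber (ResidueField 𝒪)) :=
    inferInstanceAs (Finite (ResidueField 𝒪 × ResidueField 𝒪))
  let f : MvPolynomial ι 𝒪 →+* ({y : ι → DualNumber (ResidueField 𝒪) // F y} →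
      DualNumber (ResidueField 𝒪)) :=
    RingHom.pi fun y => (aeval y.1 : MvPolynomial ι 𝒪 →ₐ[𝒪] DualNumber (ResidueField 𝒪))
  have hker : RingHom.ker f = Tker F := by
    ext p
    simp only [Tker, Ideal.mem_iInf, RingHom.mem_ker, f]
    constructor
    · intro h y
      exact congrFun h y
    · intro h
      funext y
      exact h y
  rw [← hker]
  exact Finite.of_injective _ (RingHom.kerLift_injective f)

lemma exists_gens [Finite (ResidueField 𝒪)] [IsNoetherianRing 𝒪] (hF : IsPointFunctor 𝒪 F)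
    (xbar : ι → ResidueField 𝒪) :
    ∃ s : Finset (MvPolynomial ι 𝒪), (∀ p ∈ s, p ∈ Mx xbar) ∧
      (maximalIdeal 𝒪).map (C : 𝒪 →+* MvPolynomial ι 𝒪) ≤ Ideal.span (s : Set (MvPolynomial ι 𝒪)) ∧
      Mx xbar ≤ Ideal.span (s : Set (MvPolynomial ι 𝒪)) ⊔ Tker F := by
  classical
  haveI := finite_quot_Tker hF
  obtain ⟨t, ht, htfin, himg⟩ := (Set.exists_subset_image_finite_and
    (f := Ideal.Quotient.mk (Tker F)) (s := (Mx xbar : Set (MvPolynomial ι 𝒪)))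
    (p := fun u => u = Ideal.Quotient.mk (Tker F) '' (Mx xbar : Set (MvPolynomial ι 𝒪)))).mp
    ⟨_, subset_rfl, Set.toFinite _, rfl⟩
  obtain ⟨g, hg⟩ := (isNoetherianRing_iff_ideal_fg 𝒪).mp inferInstance (maximalIdeal 𝒪)
  refine ⟨htfin.toFinset ∪ g.image C, ?_, ?_, ?_⟩
  · intro p hp
    rw [Finset.mem_union] at hp
    rcases hp with hp | hp
    · exact ht (htfin.mem_toFinset.mp hp)
    · obtain ⟨a, ha, rfl⟩ := Finset.mem_image.mp hp
      rw [C_mem_Mx_iff, ← hg]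
      exact Ideal.subset_span ha
  · rw [← hg, Ideal.map_span]
    refine Ideal.span_mono ?_
    intro p hp
    obtain ⟨a, ha, rfl⟩ := hp
    simp only [Finset.coe_union, Finset.coe_image, Set.mem_union]
    right
    exact ⟨a, ha, rfl⟩
  · intro p hp
    have h1 : Ideal.Quotient.mk (Tker F) p ∈ Ideal.Quotient.mk (Tker F) '' t := by
      rw [himg]
      exact ⟨p, hp, rfl⟩
    obtain ⟨q, hq, hqp⟩ := h1
    have h2 : p - q ∈ Tker F := by
      rw [← Ideal.Quotient.eq, hqp]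
    have h3 : p = q + (p - q) := by ring
    rw [h3]
    refine Ideal.add_mem _ (Ideal.mem_sup_left (Ideal.subset_span ?_)) (Ideal.mem_sup_right h2)
    simp only [Finset.coe_union, Set.mem_union]
    left
    exact htfin.mem_toFinset.mpr hq

lemma Good.Mx_le_sq (hF : IsPointFunctor 𝒪 F) {I : Ideal (MvPolynomial ι 𝒪)}
    (h : Good F xbar I) {s : Set (MvPolynomial ι 𝒪)} (hs : ∀ p ∈ s, p ∈ Mx xbar)
    (hC : (maximalIdeal 𝒪).map (C : 𝒪 →+* MvPolynomial ι 𝒪) ≤ Ideal.span s)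
    (hT : Mx xbar ≤ Ideal.span s ⊔ Tker F) :
    Mx xbar ≤ (Ideal.span s ⊔ I) ⊔ (Mx xbar) ^ 2 := by
  set I' : Ideal (MvPolynomial ι 𝒪) := (Ideal.span s ⊔ I) ⊔ (Mx xbar) ^ 2 with hI'
  have hI'M : I' ≤ Mx xbar :=
    sup_le (sup_le (Ideal.span_le.mpr hs) h.adm.le) (Ideal.pow_le_self two_ne_zero)
  have hII' : I ≤ I' := le_sup_right.trans le_sup_left
  have hsI' : Ideal.span s ≤ I' := le_sup_left.trans le_sup_left
  have hgood : Good F xbar I' := h.mono hF hII' hI'M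
  obtain ⟨hadm, hFI'⟩ := hgood
  haveI := hadm.isLocalRing
  intro p hp
  by_contra hpI'
  have hb : Ideal.Quotient.mk I' p ≠ 0 := by
    rwa [Ne, Ideal.Quotient.eq_zero_iff_mem]
  have hsq : (maximalIdeal (MvPolynomial ι 𝒪 ⧸ I')) ^ 2 = ⊥ := by
    rw [hadm.maximalIdeal_eq, ← Ideal.map_pow]
    exact Ideal.map_mk_eq_bot_of_le le_sup_right
  have hm : ∀ a ∈ maximalIdeal 𝒪, algebraMap 𝒪 (MvPolynomial ι 𝒪 ⧸ I') a = 0 := by
    intro a ha
    have h1 : algebraMap 𝒪 (MvPolynomial ι 𝒪 ⧸ I') a = Ideal.Quotient.mk I' (C a) := rfl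
    rw [h1, Ideal.Quotient.eq_zero_iff_mem]
    exact hsI' (hC (Ideal.mem_map_of_mem _ ha))
  letI := dualAlg 𝒪
  obtain ⟨φ, hφ⟩ := exists_algHom_dualNumber_ne_zero 𝒪 _ hadm.isTest hsq hm _ hb
  have hFy := hF.map hadm.isTest (isArtinianTestAlgebra_dualNumber 𝒪) φ hFI'
  have hev : (aeval (φ ∘ fun i => Ideal.Quotient.mk I' (X i)) :
      MvPolynomial ι 𝒪 →ₐ[𝒪] DualNumber (ResidueField 𝒪)) = φ.comp (Ideal.Quotient.mkₐ 𝒪 I') := by
    refine MvPolynomial.algHom_ext fun i => ?_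
    rw [aeval_X]
    rfl
  obtain ⟨u, hu, v, hv, huv⟩ := Submodule.mem_sup.mp (hT hp)
  apply hφ
  have h1 : φ (Ideal.Quotient.mk I' p) =
      aeval (φ ∘ fun i => Ideal.Quotient.mk I' (X i)) p := by
    rw [hev]; rfl
  rw [h1, ← huv, map_add]
  have h2 : aeval (φ ∘ fun i => Ideal.Quotient.mk I' (X i)) u = 0 := by
    rw [hev]
    show φ (Ideal.Quotient.mk I' u) = 0
    rw [Ideal.Quotient.eq_zero_iff_mem.mpr (hsI' hu), map_zero]
  have h3 : aeval (φ ∘ fun i => Ideal.Quotient.mk I' (X i)) v = 0 :=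
    Tker_le _ hFy hv
  rw [h2, h3, add_zero]

/-- ideal-theoretic Nakayama by iteration -/
lemma le_sup_pow_of_le_sup_sq {R : Type} [CommRing R] {M N : Ideal R} (h : M ≤ N ⊔ M ^ 2)
    (j : ℕ) : M ≤ N ⊔ M ^ (j + 1) := by
  induction j with
  | zero => simp
  | succ j ih =>
    have h1 : M ^ (j + 1) ≤ N ⊔ M ^ (j + 2) := by
      calc M ^ (j + 1) = M ^ j * M := pow_succ _ _
        _ ≤ M ^ j * (N ⊔ M ^ 2) := Ideal.mul_mono_right h
        _ = M ^ j * N ⊔ M ^ j * M ^ 2 := Ideal.mul_sup _ _ _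
        _ ≤ N ⊔ M ^ (j + 2) := by
          refine sup_le_sup Ideal.mul_le_right ?_
          rw [← pow_add]
    exact ih.trans (sup_le le_sup_left h1)

lemma Good.Mx_le (hF : IsPointFunctor 𝒪 F) {I : Ideal (MvPolynomial ι 𝒪)}
    (h : Good F xbar I) {s : Set (MvPolynomial ι 𝒪)} (hs : ∀ p ∈ s, p ∈ Mx xbar)
    (hC : (maximalIdeal 𝒪).map (C : 𝒪 →+* MvPolynomial ι 𝒪) ≤ Ideal.span s)
    (hT : Mx xbar ≤ Ideal.span s ⊔ Tker F) :
    Mx xbar ≤ Ideal.span s ⊔ I := by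
  obtain ⟨n, hn⟩ := h.adm.pow_le
  refine (le_sup_pow_of_le_sup_sq (h.Mx_le_sq hF hs hC hT) n).trans (sup_le le_rfl ?_)
  exact ((Ideal.pow_le_pow_right (Nat.le_succ n)).trans hn).trans le_sup_right

end Tangent

end Fermat.Agent.S53.Rep
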