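import Mathlib
import Fermat.Agent.S53.Rep.Tangent

set_option autoImplicit false
set_option linter.style.haveILetI false
set_option linter.unusedSectionVars false

namespace Fermat.Agent.S53.Rep

open IsLocalRing GaloisRep MvPolynomial

lemma exists_sub_mem_pow_succ {S A : Type} [CommRing S] [CommRing A] (f : S →+* A) (𝔞 : Ideal S)
    (h : ∀ a : A, ∃ u : S, a - f u ∈ 𝔞.map f) (j : ℕ) (c : A) (hc : c ∈ (𝔞.map f) ^ j) :
    ∃ u ∈ 𝔞 ^ j, c - f u ∈ (𝔞.map f) ^ (j + 1) := by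
  rw [← Ideal.map_pow] at hc
  refine Submodule.span_induction (p := fun c _ => ∃ u ∈ 𝔞 ^ j, c - f u ∈ (𝔞.map f) ^ (j + 1))
    ?_ ?_ ?_ ?_ hc
  · rintro _ ⟨w, hw, rfl⟩
    exact ⟨w, hw, by simp⟩
  · exact ⟨0, zero_mem _, by simp⟩
  · rintro x y _ _ ⟨u, hu, hxu⟩ ⟨v, hv, hyv⟩
    refine ⟨u + v, add_mem hu hv, ?_⟩
    have : x + y - f (u + v) = (x - f u) + (y - f v) := by rw [map_add]; ring
    rw [this]
    exact add_mem hxu hyv
  · rintro a x _ ⟨u, hu, hxu⟩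
    obtain ⟨w, hw⟩ := h a
    refine ⟨w * u, Ideal.mul_mem_left _ _ hu, ?_⟩
    have : a • x - f (w * u) = a * (x - f u) + (a - f w) * f u := by
      rw [map_mul, smul_eq_mul]; ring
    rw [this]
    refine add_mem (Ideal.mul_mem_left _ _ hxu) ?_
    rw [pow_succ', ← Ideal.map_pow]
    exact Ideal.mul_mem_mul hw (Ideal.mem_map_of_mem _ hu)

lemma exists_sub_mem_pow {S A : Type} [CommRing S] [CommRing A] (f : S →+* A) (𝔞 : Ideal S)
    (h : ∀ a : A, ∃ u : S, a - f u ∈ 𝔞.map f) (j : ℕ) (a : A) :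
    ∃ u, a - f u ∈ (𝔞.map f) ^ j := by
  induction j with
  | zero => exact ⟨0, by simp⟩
  | succ j ih =>
    obtain ⟨u, hu⟩ := ih
    obtain ⟨v, _, hv⟩ := exists_sub_mem_pow_succ f 𝔞 h j _ hu
    refine ⟨u + v, ?_⟩
    have : a - f (u + v) = a - f u - f v := by rw [map_add]; ring
    rw [this]
    exact hv

lemma surjective_of_nilpotent {S A : Type} [CommRing S] [CommRing A] (f : S →+* A) (𝔞 : Ideal S)
    (h : ∀ a : A, ∃ u : S, a - f u ∈ 𝔞.map f) (n : ℕ) (hn : (𝔞.map f) ^ n = ⊥) :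
    Function.Surjective f := by
  intro a
  obtain ⟨u, hu⟩ := exists_sub_mem_pow f 𝔞 h n a
  rw [hn, Ideal.mem_bot, sub_eq_zero] at hu
  exact ⟨u, hu.symm⟩

section Gens

variable {𝒪 : Type} [CommRing 𝒪] [IsLocalRing 𝒪] {ι : Type}
variable (F : ∀ ⦃A : Type⦄ [CommRing A] [IsLocalRing A] [Algebra 𝒪 A], (ι → A) → Prop)
variable (xbar : ι → ResidueField 𝒪)

/-- A finite set of elements of `M` generating the maximal ideal of every good quotient. -/
structure Gens (s : Finset (MvPolynomial ι 𝒪)) : Prop where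
  mem : ∀ p ∈ s, p ∈ Mx xbar
  le : ∀ I, Good F xbar I → Mx xbar ≤ Ideal.span (s : Set (MvPolynomial ι 𝒪)) ⊔ I

variable {F xbar}

lemma exists_Gens [Finite (ResidueField 𝒪)] [IsNoetherianRing 𝒪] (hF : IsPointFunctor 𝒪 F) :
    ∃ s, Gens F xbar s := by
  obtain ⟨s, hs, hC, hT⟩ := exists_gens hF xbar
  exact ⟨s, hs, fun I hI => hI.Mx_le hF hs hC hT⟩

/-- The evaluation map from the small polynomial ring. -/
noncomputable def ev (s : Finset (MvPolynomial ι 𝒪)) :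
    MvPolynomial s 𝒪 →ₐ[𝒪] MvPolynomial ι 𝒪 :=
  aeval (fun i : s => (i : MvPolynomial ι 𝒪))

lemma map_ev_idealOfVars (s : Finset (MvPolynomial ι 𝒪)) :
    (idealOfVars s 𝒪).map (ev s) = Ideal.span (s : Set (MvPolynomial ι 𝒪)) := by
  rw [idealOfVars, Ideal.map_span, ← Set.range_comp]
  congr 1
  ext p
  simp [ev]

variable {s : Finset (MvPolynomial ι 𝒪)} {I : Ideal (MvPolynomial ι 𝒪)}

/-- The composite `S₀ → P → P/I`. -/
noncomputable def evq (s : Finset (MvPolynomial ι 𝒪)) (I : Ideal (MvPolynomial ι 𝒪)) :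
    MvPolynomial s 𝒪 →ₐ[𝒪] MvPolynomial ι 𝒪 ⧸ I :=
  (Ideal.Quotient.mkₐ 𝒪 I).comp (ev s)

lemma evq_apply (u : MvPolynomial s 𝒪) : evq s I u = Ideal.Quotient.mk I (ev s u) := rfl

lemma Gens.map_evq (hs : Gens F xbar s) (hI : Good F xbar I) :
    (idealOfVars s 𝒪).map (evq s I) = (Mx xbar).map (Ideal.Quotient.mk I) := by
  have h1 : (idealOfVars s 𝒪).map (evq s I) =
      ((idealOfVars s 𝒪).map (ev s)).map (Ideal.Quotient.mk I) :=
    (Ideal.map_map (ev s : MvPolynomial s 𝒪 →+* MvPolynomial ι 𝒪) (Ideal.Quotient.mk I)).symm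
  rw [h1, map_ev_idealOfVars]
  apply le_antisymm
  · exact Ideal.map_mono (Ideal.span_le.mpr hs.mem)
  · calc (Mx xbar).map (Ideal.Quotient.mk I)
        ≤ (Ideal.span (s : Set (MvPolynomial ι 𝒪)) ⊔ I).map (Ideal.Quotient.mk I) :=
          Ideal.map_mono (hs.le I hI)
      _ = (Ideal.span (s : Set (MvPolynomial ι 𝒪))).map (Ideal.Quotient.mk I) := by
          rw [Ideal.map_sup, Ideal.map_quotient_self, sup_bot_eq]

lemma Gens.evq_surjective (hs : Gens F xbar s) (hI : Good F xbar I) :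
    Function.Surjective (evq s I) := by
  obtain ⟨n, hn⟩ := hI.adm.pow_le
  refine surjective_of_nilpotent (evq s I : MvPolynomial s 𝒪 →+* MvPolynomial ι 𝒪 ⧸ I)
    (idealOfVars s 𝒪) ?_ n ?_
  · intro a
    obtain ⟨p, rfl⟩ := Ideal.Quotient.mk_surjective a
    obtain ⟨c, hc⟩ := exists_C_sub_mem_Mx xbar p
    refine ⟨C c, ?_⟩
    have h1 : (idealOfVars s 𝒪).map (evq s I : MvPolynomial s 𝒪 →+* MvPolynomial ι 𝒪 ⧸ I) =
      (Mx xbar).map (Ideal.Quotient.mk I) := hs.map_evq hI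
    rw [h1]
    have h2 : (evq s I : MvPolynomial s 𝒪 →+* MvPolynomial ι 𝒪 ⧸ I) (C c) =
        Ideal.Quotient.mk I (C c) := by
      show Ideal.Quotient.mk I (ev s (C c)) = _
      rw [ev, aeval_C]; rfl
    rw [h2, ← map_sub]
    exact Ideal.mem_map_of_mem _ hc
  · have h1 : (idealOfVars s 𝒪).map (evq s I : MvPolynomial s 𝒪 →+* MvPolynomial ι 𝒪 ⧸ I) =
      (Mx xbar).map (Ideal.Quotient.mk I) := hs.map_evq hI
    rw [h1, ← Ideal.map_pow]
    exact Ideal.map_mk_eq_bot_of_le hn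

end Gens

end Fermat.Agent.S53.Rep
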