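import Mathlib
import Fermat.Agent.S53.Rep.Surj

set_option autoImplicit false
set_option linter.style.haveILetI false
set_option linter.unusedSectionVars false

namespace Fermat.Agent.S53.Rep

open IsLocalRing GaloisRep MvPolynomial

section Imin

variable {𝒪 : Type} [CommRing 𝒪] [IsLocalRing 𝒪] {ι : Type}
variable (F : ∀ ⦃A : Type⦄ [CommRing A] [IsLocalRing A] [Algebra 𝒪 A], (ι → A) → Prop)
variable (xbar : ι → ResidueField 𝒪)

/-- The maximal ideal of the small polynomial ring. -/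
noncomputable def M0 (s : Finset (MvPolynomial ι 𝒪)) : Ideal (MvPolynomial s 𝒪) :=
  (Mx xbar).comap (ev s)

lemma M0_eq_ker (s : Finset (MvPolynomial ι 𝒪)) :
    M0 xbar s = RingHom.ker ((aeval xbar : MvPolynomial ι 𝒪 →ₐ[𝒪] ResidueField 𝒪).comp (ev s)) :=
  rfl

lemma comp_ev_surjective (s : Finset (MvPolynomial ι 𝒪)) :
    Function.Surjective ((aeval xbar : MvPolynomial ι 𝒪 →ₐ[𝒪] ResidueField 𝒪).comp (ev s)) := by
  intro c
  obtain ⟨a, rfl⟩ := IsLocalRing.residue_surjective c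
  exact ⟨C a, by simp [ev]⟩

instance M0_isMaximal (s : Finset (MvPolynomial ι 𝒪)) : (M0 xbar s).IsMaximal := by
  rw [M0_eq_ker]
  exact RingHom.ker_isMaximal_of_surjective _ (comp_ev_surjective xbar s)

lemma finite_quot_M0 [Finite (ResidueField 𝒪)] (s : Finset (MvPolynomial ι 𝒪)) :
    Finite (MvPolynomial s 𝒪 ⧸ M0 xbar s) := by
  rw [M0_eq_ker]
  exact Finite.of_injective _ (Ideal.kerLiftAlg_injective _)

lemma finite_quot_M0_pow [Finite (ResidueField 𝒪)] [IsNoetherianRing 𝒪]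
    (s : Finset (MvPolynomial ι 𝒪)) (n : ℕ) :
    Finite (MvPolynomial s 𝒪 ⧸ (M0 xbar s) ^ n) := by
  haveI := finite_quot_M0 xbar s
  exact Ideal.finite_quotient_pow ((isNoetherianRing_iff_ideal_fg _).mp inferInstance _) n

variable {F xbar}
variable {s : Finset (MvPolynomial ι 𝒪)} {I : Ideal (MvPolynomial ι 𝒪)}

lemma Gens.card_le [Finite (ResidueField 𝒪)] [IsNoetherianRing 𝒪]
    (hs : Gens F xbar s) (hI : Good F xbar I) {n : ℕ} (hn : (Mx xbar) ^ n ≤ I) :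
    Nat.card (MvPolynomial ι 𝒪 ⧸ I) ≤ Nat.card (MvPolynomial s 𝒪 ⧸ (M0 xbar s) ^ n) := by
  haveI := finite_quot_M0_pow xbar s n
  have hker : ∀ a ∈ (M0 xbar s) ^ n,
      (evq s I : MvPolynomial s 𝒪 →+* MvPolynomial ι 𝒪 ⧸ I) a = 0 := by
    intro a ha
    have h1 : a ∈ ((Mx xbar) ^ n).comap (ev s) := Ideal.le_comap_pow _ n ha
    exact Ideal.Quotient.eq_zero_iff_mem.mpr (hn h1)
  exact Nat.card_le_card_of_surjective (Ideal.Quotient.lift _ _ hker)
    (Ideal.Quotient.lift_surjective_of_surjective _ hker (hs.evq_surjective hI))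

variable (F xbar)

/-- The least good ideal containing `M ^ n` (it is `⊤` for `n = 0`). -/
noncomputable def Imin (n : ℕ) : Ideal (MvPolynomial ι 𝒪) :=
  sInf {I | Good F xbar I ∧ (Mx xbar) ^ n ≤ I}

variable {F xbar}

lemma Imin_le {n : ℕ} (hI : Good F xbar I) (hn : (Mx xbar) ^ n ≤ I) : Imin F xbar n ≤ I :=
  sInf_le ⟨hI, hn⟩

lemma pow_le_Imin (n : ℕ) : (Mx xbar) ^ n ≤ Imin F xbar n :=
  le_sInf fun _ hI => hI.2

lemma Imin_anti (n : ℕ) : Imin F xbar (n + 1) ≤ Imin F xbar n :=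
  le_sInf fun _ hI => Imin_le hI.1 ((Ideal.pow_le_pow_right (Nat.le_succ n)).trans hI.2)

lemma Imin_zero : Imin F xbar 0 = ⊤ := by
  rw [eq_top_iff]
  simpa using pow_le_Imin (F := F) (xbar := xbar) 0

lemma good_Imin [Finite (ResidueField 𝒪)] [IsNoetherianRing 𝒪] (hF : IsPointFunctor 𝒪 F)
    (hx : F xbar) (hs : Gens F xbar s) {n : ℕ} (hn : n ≠ 0) : Good F xbar (Imin F xbar n) := by
  set 𝒢 : Set (Ideal (MvPolynomial ι 𝒪)) := {I | Good F xbar I ∧ (Mx xbar) ^ n ≤ I} with h𝒢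
  set cs : Set ℕ := (fun I => Nat.card (MvPolynomial ι 𝒪 ⧸ I)) '' 𝒢 with hcs
  have hne : cs.Nonempty := ⟨_, Mx xbar, ⟨good_Mx hF hx, Ideal.pow_le_self hn⟩, rfl⟩
  have hbdd : BddAbove cs := by
    refine ⟨Nat.card (MvPolynomial s 𝒪 ⧸ (M0 xbar s) ^ n), ?_⟩
    rintro _ ⟨I, hI, rfl⟩
    exact hs.card_le hI.1 hI.2
  obtain ⟨I₀, hI₀, hcard⟩ := Nat.sSup_mem hne hbdd
  have hmax : ∀ I ∈ 𝒢, Nat.card (MvPolynomial ι 𝒪 ⧸ I) ≤ Nat.card (MvPolynomial ι 𝒪 ⧸ I₀) := by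
    intro I hI
    have h1 : Nat.card (MvPolynomial ι 𝒪 ⧸ I₀) = sSup cs := hcard
    rw [h1]
    exact le_csSup hbdd ⟨I, hI, rfl⟩
  have hmin : ∀ I ∈ 𝒢, I₀ ≤ I := by
    intro I hI
    have hinf : I₀ ⊓ I ∈ 𝒢 := ⟨hI₀.1.inf hF hI.1, le_inf hI₀.2 hI.2⟩
    haveI := hinf.1.adm.finite
    have hbij := (Ideal.Quotient.factor_surjective
      (inf_le_left : I₀ ⊓ I ≤ I₀)).bijective_of_nat_card_le (hmax _ hinf)
    intro p hp
    have h1 : Ideal.Quotient.factor (inf_le_left : I₀ ⊓ I ≤ I₀) (Ideal.Quotient.mk _ p) =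
        Ideal.Quotient.factor (inf_le_left : I₀ ⊓ I ≤ I₀) 0 := by
      rw [Ideal.Quotient.factor_mk, map_zero, Ideal.Quotient.eq_zero_iff_mem]
      exact hp
    have h2 := hbij.1 h1
    rw [Ideal.Quotient.eq_zero_iff_mem] at h2
    exact h2.2
  have : Imin F xbar n = I₀ := le_antisymm (sInf_le hI₀) (le_sInf hmin)
  rw [this]
  exact hI₀.1

lemma Imin_one [Finite (ResidueField 𝒪)] (hF : IsPointFunctor 𝒪 F) (hx : F xbar) :
    Imin F xbar 1 = Mx xbar :=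
  le_antisymm (Imin_le (good_Mx hF hx) (by simp)) (by simpa using pow_le_Imin (F := F) 1)

lemma Imin_eq_sup [Finite (ResidueField 𝒪)] [IsNoetherianRing 𝒪] (hF : IsPointFunctor 𝒪 F)
    (hx : F xbar) (hs : Gens F xbar s) (n : ℕ) :
    Imin F xbar n = Imin F xbar (n + 1) ⊔ (Mx xbar) ^ n := by
  apply le_antisymm
  · rcases Nat.eq_zero_or_pos n with rfl | hn
    · simp
    · refine Imin_le ((good_Imin hF hx hs (Nat.succ_ne_zero n)).mono hF le_sup_left ?_) le_sup_right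
      exact sup_le (good_Imin hF hx hs (Nat.succ_ne_zero n)).adm.le (Ideal.pow_le_self hn.ne')
  · exact sup_le (Imin_anti n) (pow_le_Imin n)

end Imin

end Fermat.Agent.S53.Rep
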