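import Mathlib
import Fermat.Agent.S53.Rep.Imin

set_option autoImplicit false
set_option linter.style.haveILetI false
set_option linter.unusedSectionVars false

namespace Fermat.Agent.S53.Rep

open IsLocalRing GaloisRep MvPolynomial

section Kn

variable {𝒪 : Type} [CommRing 𝒪] [IsLocalRing 𝒪] {ι : Type}
variable (F : ∀ ⦃A : Type⦄ [CommRing A] [IsLocalRing A] [Algebra 𝒪 A], (ι → A) → Prop)
variable (xbar : ι → ResidueField 𝒪)

/-- The pull back of `Imin n` to the small polynomial ring. -/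
noncomputable def Kn (s : Finset (MvPolynomial ι 𝒪)) (n : ℕ) : Ideal (MvPolynomial s 𝒪) :=
  (Imin F xbar n).comap (ev s)

variable {F xbar}
variable {s : Finset (MvPolynomial ι 𝒪)}

lemma mem_Kn {n : ℕ} {u : MvPolynomial s 𝒪} : u ∈ Kn F xbar s n ↔ ev s u ∈ Imin F xbar n :=
  Iff.rfl

lemma ker_evq (I : Ideal (MvPolynomial ι 𝒪)) : RingHom.ker (evq s I) = I.comap (ev s) := by
  ext u
  rw [RingHom.mem_ker, evq_apply, Ideal.Quotient.eq_zero_iff_mem]
  rfl

lemma Kn_eq_sup [Finite (ResidueField 𝒪)] [IsNoetherianRing 𝒪] (hF : IsPointFunctor 𝒪 F)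
    (hx : F xbar) (hs : Gens F xbar s) (n : ℕ) :
    Kn F xbar s n = Kn F xbar s (n + 1) ⊔ (idealOfVars s 𝒪) ^ n := by
  have hgood := good_Imin hF hx hs (Nat.succ_ne_zero n)
  have hsurj := hs.evq_surjective hgood
  have h1 : (Imin F xbar n).map (Ideal.Quotient.mk (Imin F xbar (n + 1))) =
      ((idealOfVars s 𝒪) ^ n).map (evq s (Imin F xbar (n + 1))) := by
    rw [Imin_eq_sup hF hx hs n, Ideal.map_sup, Ideal.map_quotient_self, bot_sup_eq, Ideal.map_pow,
      Ideal.map_pow, hs.map_evq hgood]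
  have h2 : Kn F xbar s n = (((idealOfVars s 𝒪) ^ n).map (evq s (Imin F xbar (n + 1)))).comap
      (evq s (Imin F xbar (n + 1))) := by
    rw [← h1]
    have h3 : Imin F xbar n = ((Imin F xbar n).map
      (Ideal.Quotient.mk (Imin F xbar (n + 1)))).comap (Ideal.Quotient.mk (Imin F xbar (n + 1))) :=
      (Ideal.comap_map_mk (Imin_anti n)).symm
    conv_lhs => rw [Kn, h3]
    rfl
  rw [h2, Ideal.comap_map_of_surjective' _ hsurj, ker_evq, sup_comm]
  rfl

lemma Kn_one [Finite (ResidueField 𝒪)] (hF : IsPointFunctor 𝒪 F) (hx : F xbar) :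
    Kn F xbar s 1 = M0 xbar s := by
  rw [Kn, Imin_one hF hx]
  rfl

lemma Kn_one_isMaximal [Finite (ResidueField 𝒪)] (hF : IsPointFunctor 𝒪 F) (hx : F xbar) :
    (Kn F xbar s 1).IsMaximal := by
  rw [Kn_one hF hx]
  infer_instance

end Kn

end Fermat.Agent.S53.Rep
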